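import Fermat.Agent.S27.Dim.Spec

/-!
# Row S27, block DIM: the Mathlib-only leaves CHART-AT and LOC (helper351)

* `chartAt k : Dim.Stmt.ChartAt k` — every `k`-point of a `k`-scheme lies in an affine open
  chart `Spec R ⊆ J`, `R` a `k`-algebra, and is given by a `k`-algebra homomorphism `R → k`.
* `loc k : Dim.Stmt.Loc k` — a point with values in an augmented `k`-algebra `A → k` with nil
  kernel whose restriction to `k` lies in a chart lies in the chart.
-/

set_option autoImplicit false
set_option linter.style.haveILetI false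

universe u

open CategoryTheory CategoryTheory.Limits AlgebraicGeometry NeronModelInfra GoodReductionJacobian

namespace Fermat.Agent.S27.H351

open Fermat.Agent.S25

section Aux

variable {k : Type u} [Field k]

/-- The spectrum of a field has exactly one point. -/
lemma spec_field_point_eq (t t' : Spec (CommRingCat.of k)) : t = t' := by
  have hss : Subsingleton (PrimeSpectrum k) := inferInstance
  exact hss.elim t t'

lemma spec_field_nonempty : Nonempty (Spec (CommRingCat.of k)) := by
  have hne : Nonempty (PrimeSpectrum k) := inferInstance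
  exact hne

/-- Every point of `Spec A` comes from `Spec C` if `π : A → C` is onto with nil kernel. -/
lemma exists_specMap_eq_of_nil {A C : Type u} [CommRing A] [CommRing C] (π : A →+* C)
    (hsurj : Function.Surjective π) (hker : ∀ a ∈ RingHom.ker π, IsNilpotent a)
    (t : Spec (CommRingCat.of A)) :
    ∃ t₀ : Spec (CommRingCat.of C), Spec.map (CommRingCat.ofHom π) t₀ = t := by
  have hrange := range_comap_of_surjective _ π hsurj
  have huniv : PrimeSpectrum.zeroLocus (RingHom.ker π : Set A) = Set.univ := by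
    rw [PrimeSpectrum.zeroLocus_eq_univ_iff]
    intro a ha
    rw [SetLike.mem_coe, mem_nilradical]
    exact hker a ha
  have ht : (t : PrimeSpectrum A) ∈ Set.range (PrimeSpectrum.comap π) := by
    rw [hrange, huniv]
    exact Set.mem_univ _
  obtain ⟨t₀, ht₀⟩ := ht
  exact ⟨t₀, ht₀⟩

end Aux

/-- **CHART-AT.** -/
theorem chartAt (k : Type u) [Field k] : Dim.Stmt.ChartAt k := by
  intro J f z hz
  obtain ⟨pt⟩ := spec_field_nonempty (k := k)
  obtain ⟨W₀, hW₀, hmem, -⟩ := exists_isAffineOpen_mem_and_subset
    (x := z pt) (U := ⊤) trivial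
  -- the structure homomorphism `k → Γ(J, W₀)`
  let σ : CommRingCat.of k ⟶ Γ(J, W₀) := Spec.preimage (hW₀.fromSpec ≫ f)
  have hσ : Spec.map σ = hW₀.fromSpec ≫ f := Spec.map_preimage _
  letI : Algebra k Γ(J, W₀) := σ.hom.toAlgebra
  -- the point as a ring homomorphism
  have hr : Set.range z ⊆ Set.range hW₀.fromSpec := by
    rw [hW₀.range_fromSpec]
    rintro _ ⟨t, rfl⟩
    rw [spec_field_point_eq t pt]
    exact hmem
  let ψ : Γ(J, W₀) ⟶ CommRingCat.of k := Spec.preimage (IsOpenImmersion.lift hW₀.fromSpec z hr)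
  have hψ : Spec.map ψ ≫ hW₀.fromSpec = z := by
    rw [Spec.map_preimage, IsOpenImmersion.lift_fac]
  have hcomm : σ ≫ ψ = 𝟙 _ := by
    apply Spec.map_injective
    rw [Spec.map_comp, hσ, ← Category.assoc, hψ, hz, Spec.map_id]
  refine ⟨Γ(J, W₀), inferInstance, inferInstance, hW₀.fromSpec, inferInstance,
    { ψ.hom with
      commutes' := fun c =>
        congrArg (fun g : CommRingCat.of k ⟶ CommRingCat.of k => g.hom c) hcomm }, ?_, ?_⟩
  · exact hσ.symm
  · exact hψ

/-- **LOC.** -/
theorem loc (k : Type u) [Field k] : Dim.Stmt.Loc k := by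
  intro J f R _ _ j _ hj x A _ _ π hπ t ht
  have hπsurj : Function.Surjective π.toRingHom := fun c =>
    ⟨algebraMap k A c, π.commutes c⟩
  -- the point factors through the chart
  have hr : Set.range t.1 ⊆ Set.range j := by
    rintro _ ⟨a, rfl⟩
    obtain ⟨b, rfl⟩ := exists_specMap_eq_of_nil π.toRingHom hπsurj hπ a
    refine ⟨Spec.map (CommRingCat.ofHom x.toRingHom) b, ?_⟩
    have := congrArg (fun g : Spec (CommRingCat.of k) ⟶ J => g b) ht
    exact this.symm
  let t' : Spec (CommRingCat.of A) ⟶ Spec (CommRingCat.of R) := IsOpenImmersion.lift j t.1 hr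
  have ht' : t' ≫ j = t.1 := IsOpenImmersion.lift_fac _ _ _
  let φ₀ : CommRingCat.of R ⟶ CommRingCat.of A := Spec.preimage t'
  have hφ₀ : Spec.map φ₀ = t' := Spec.map_preimage _
  have hlin : CommRingCat.ofHom (algebraMap k R) ≫ φ₀ = CommRingCat.ofHom (algebraMap k A) := by
    apply Spec.map_injective
    rw [Spec.map_comp, hφ₀]
    change t' ≫ specStr k R = specStr k A
    rw [← hj, ← Category.assoc, ht']
    exact t.2
  let φ : R →ₐ[k] A :=
    { φ₀.hom with
      commutes' := fun c =>
        congrArg (fun g : CommRingCat.of k ⟶ CommRingCat.of A => g.hom c) hlin }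
  have hφ : Spec.map (CommRingCat.ofHom φ.toRingHom) = t' := hφ₀
  refine ⟨φ, ?_, ?_⟩
  · rw [hφ, ht']
  · have h1 : Spec.map (CommRingCat.ofHom (π.comp φ).toRingHom) ≫ j =
        Spec.map (CommRingCat.ofHom x.toRingHom) ≫ j := by
      rw [← ht, ← ht', ← hφ, ← Category.assoc, ← Spec.map_comp]
      rfl
    have h2 := Spec.map_injective ((cancel_mono j).1 h1)
    ext r
    exact congrArg (fun g : CommRingCat.of R ⟶ CommRingCat.of k => g.hom r) h2

end Fermat.Agent.S27.H351
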